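import Mathlib
import Fermat.Agent.S05.ShortForm

/-!
# S13 [DIV], Route B: the function field of a short Weierstrass curve and its generic point

For `W : y² = x³ + a₂ x² + a₄ x` over a field `K` we construct `F = K(x)[y]/(y² - f(x))`, the
generic point `(x, y)`, the involution `y ↦ -y`, and show that an element fixed by the involution
lies in `K(x)`.
-/

set_option autoImplicit false

open Polynomial WeierstrassCurve WeierstrassCurve.Affine

namespace Fermat.Agent.S13

variable {K : Type*} [Field K] (W : WeierstrassCurve.Affine K)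

/-- The cubic `f = X³ + a₂ X² + a₄ X`. -/
noncomputable def gt_cubic : K[X] := X ^ 3 + C W.a₂ * X ^ 2 + C W.a₄ * X

lemma gt_cubic_natDegree : (gt_cubic W).natDegree = 3 := by
  unfold gt_cubic
  compute_degree!

lemma gt_cubic_ne_zero : gt_cubic W ≠ 0 := by
  intro h
  have := gt_cubic_natDegree W
  rw [h, natDegree_zero] at this
  omega

/-- The cubic as a rational function. -/
noncomputable def gt_cubicR : RatFunc K := algebraMap K[X] (RatFunc K) (gt_cubic W)

lemma gt_cubicR_ne_zero : gt_cubicR W ≠ 0 := by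
  unfold gt_cubicR
  rw [Ne, map_eq_zero_iff _ (RatFunc.algebraMap_injective K)]
  exact gt_cubic_ne_zero W

lemma gt_cubicR_intDegree : (gt_cubicR W).intDegree = 3 := by
  unfold gt_cubicR
  rw [RatFunc.intDegree_polynomial, gt_cubic_natDegree]
  rfl

/-- The cubic is not a square in `K(x)`. -/
lemma gt_cubicR_not_sq (b : RatFunc K) : b ^ 2 ≠ gt_cubicR W := by
  intro h
  have hb : b ≠ 0 := by
    rintro rfl
    rw [zero_pow two_ne_zero] at h
    exact gt_cubicR_ne_zero W h.symm
  have := congrArg RatFunc.intDegree h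
  rw [sq, RatFunc.intDegree_mul hb hb, gt_cubicR_intDegree] at this
  omega

/-- The polynomial `Y² - f(x)` over `K(x)`. -/
noncomputable def gt_poly : (RatFunc K)[X] := X ^ 2 - C (gt_cubicR W)

lemma gt_poly_irreducible : Irreducible (gt_poly W) :=
  X_pow_sub_C_irreducible_of_prime Nat.prime_two (gt_cubicR_not_sq W)

instance gt_fact_irreducible : Fact (Irreducible (gt_poly W)) := ⟨gt_poly_irreducible W⟩

lemma gt_poly_eval₂ {S : Type*} [CommRing S] (φ : RatFunc K →+* S) (z : S) :
    (gt_poly W).eval₂ φ z = z ^ 2 - φ (gt_cubicR W) := by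
  unfold gt_poly
  rw [eval₂_sub, eval₂_pow, eval₂_X, eval₂_C]

lemma gt_poly_monic : (gt_poly W).Monic := monic_X_pow_sub_C _ two_ne_zero

lemma gt_poly_natDegree : (gt_poly W).natDegree = 2 := natDegree_X_pow_sub_C

/-- The function field `F = K(x)[y]/(y² - f(x))`. -/
abbrev gt_F : Type _ := AdjoinRoot (gt_poly W)

noncomputable instance gt_field : Field (gt_F W) := AdjoinRoot.instField

/-- The coordinate function `x`. -/
noncomputable def gt_x : gt_F W := algebraMap (RatFunc K) (gt_F W) RatFunc.X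

/-- The coordinate function `y`. -/
noncomputable def gt_y : gt_F W := AdjoinRoot.root (gt_poly W)

lemma gt_y_sq : gt_y W ^ 2 = algebraMap (RatFunc K) (gt_F W) (gt_cubicR W) := by
  have := AdjoinRoot.eval₂_root (gt_poly W)
  rw [gt_poly_eval₂, sub_eq_zero] at this
  exact this

lemma gt_algebraMap_polynomial (q : K[X]) :
    algebraMap (RatFunc K) (gt_F W) (algebraMap K[X] (RatFunc K) q) = aeval (gt_x W) q := by
  induction q using Polynomial.induction_on' with
  | add p q hp hq => rw [map_add, map_add, map_add, hp, hq]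
  | monomial n a =>
    rw [← C_mul_X_pow_eq_monomial, map_mul, map_mul, map_pow, map_pow, map_mul, map_pow, aeval_C,
      aeval_X, RatFunc.algebraMap_X]
    congr 1

lemma gt_y_sq' : gt_y W ^ 2 = gt_x W ^ 3 + algebraMap K (gt_F W) W.a₂ * gt_x W ^ 2 +
    algebraMap K (gt_F W) W.a₄ * gt_x W := by
  rw [gt_y_sq, gt_cubicR, gt_algebraMap_polynomial, gt_cubic]
  simp

/-! ### The base change of a short curve -/

lemma gt_isShort_baseChange (hW : Fermat.Agent.S05.IsShort W) (F : Type*) [Field F]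
    [Algebra K F] : Fermat.Agent.S05.IsShort (W⁄F) := by
  refine ⟨?_, ?_, ?_⟩
  · change (W.map (algebraMap K F)).a₁ = 0
    rw [WeierstrassCurve.map_a₁, hW.a₁, map_zero]
  · change (W.map (algebraMap K F)).a₃ = 0
    rw [WeierstrassCurve.map_a₃, hW.a₃, map_zero]
  · change (W.map (algebraMap K F)).a₆ = 0
    rw [WeierstrassCurve.map_a₆, hW.a₆, map_zero]

lemma gt_baseChange_a₂ (F : Type*) [Field F] [Algebra K F] :
    (W⁄F).a₂ = algebraMap K F W.a₂ := rfl

lemma gt_baseChange_a₄ (F : Type*) [Field F] [Algebra K F] :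
    (W⁄F).a₄ = algebraMap K F W.a₄ := rfl

lemma gt_baseChange_Δ_ne_zero (hΔ : W.Δ ≠ 0) (F : Type*) [Field F] [Algebra K F] :
    (W⁄F).Δ ≠ 0 := by
  change (W.map (algebraMap K F)).Δ ≠ 0
  rw [WeierstrassCurve.map_Δ, Ne, map_eq_zero]
  exact hΔ

/-- On a short curve, a pair `(x, y)` with `y² = x³ + a₂ x² + a₄ x` satisfies the equation. -/
lemma gt_equation_of_short {F : Type*} [Field F] {V : WeierstrassCurve.Affine F}
    (hV : Fermat.Agent.S05.IsShort V) {x y : F}
    (h : y ^ 2 = x ^ 3 + V.a₂ * x ^ 2 + V.a₄ * x) : V.Equation x y := by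
  rw [WeierstrassCurve.Affine.equation_iff, hV.a₁, hV.a₃, hV.a₆]
  linear_combination h

lemma gt_nonsingular_of_short {F : Type*} [Field F] {V : WeierstrassCurve.Affine F}
    (hV : Fermat.Agent.S05.IsShort V) (hΔ : V.Δ ≠ 0) {x y : F}
    (h : y ^ 2 = x ^ 3 + V.a₂ * x ^ 2 + V.a₄ * x) : V.Nonsingular x y :=
  (WeierstrassCurve.Affine.equation_iff_nonsingular_of_Δ_ne_zero hΔ).1
    (gt_equation_of_short hV h)

/-- The generic point is a nonsingular point of `W` over `F`. -/
lemma gt_generic_nonsingular (hW : Fermat.Agent.S05.IsShort W) (hΔ : W.Δ ≠ 0) :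
    (W⁄(gt_F W)).Nonsingular (gt_x W) (gt_y W) :=
  gt_nonsingular_of_short (gt_isShort_baseChange W hW _) (gt_baseChange_Δ_ne_zero W hΔ _)
    (by rw [gt_baseChange_a₂, gt_baseChange_a₄]; exact gt_y_sq' W)

/-! ### The involution -/

/-- The involution `y ↦ -y` of `F` over `K(x)`. -/
noncomputable def gt_invL : gt_F W →ₐ[RatFunc K] gt_F W :=
  AdjoinRoot.liftAlgHom (gt_poly W) (Algebra.ofId (RatFunc K) (gt_F W)) (-gt_y W) (by
    rw [gt_poly_eval₂, neg_sq, gt_y_sq, sub_eq_zero]
    rfl)

/-- The involution `y ↦ -y` of `F` over `K`. -/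
noncomputable def gt_inv : gt_F W →ₐ[K] gt_F W := (gt_invL W).restrictScalars K

lemma gt_inv_y : gt_inv W (gt_y W) = -gt_y W := by
  change gt_invL W (AdjoinRoot.root (gt_poly W)) = _
  unfold gt_invL
  rw [AdjoinRoot.liftAlgHom_root]

lemma gt_inv_algebraMap (u : RatFunc K) :
    gt_inv W (algebraMap (RatFunc K) (gt_F W) u) = algebraMap (RatFunc K) (gt_F W) u :=
  (gt_invL W).commutes u

lemma gt_inv_x : gt_inv W (gt_x W) = gt_x W := gt_inv_algebraMap W _

/-- Every element of `F` is `u + w y` with `u, w ∈ K(x)`. -/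
lemma gt_exists_decomp (z : gt_F W) :
    ∃ u w : RatFunc K, z = algebraMap (RatFunc K) (gt_F W) u +
      algebraMap (RatFunc K) (gt_F W) w * gt_y W := by
  obtain ⟨q, rfl⟩ := AdjoinRoot.mk_surjective z
  have hdeg : (q %ₘ gt_poly W).natDegree < 2 := by
    have := natDegree_modByMonic_lt q (gt_poly_monic W) (by
      intro h
      have := gt_poly_natDegree W
      rw [h, natDegree_one] at this
      omega)
    rwa [gt_poly_natDegree] at this
  have hq : AdjoinRoot.mk (gt_poly W) q = AdjoinRoot.mk (gt_poly W) (q %ₘ gt_poly W) := by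
    rw [AdjoinRoot.mk_eq_mk]
    refine ⟨q /ₘ gt_poly W, ?_⟩
    have := modByMonic_add_div q (gt_poly W)
    linear_combination -this
  set r := q %ₘ gt_poly W with hr
  have hr2 : r = C (r.coeff 0) + C (r.coeff 1) * X := by
    have hle : r.natDegree ≤ 1 := by omega
    conv_lhs => rw [eq_X_add_C_of_natDegree_le_one hle]
    ring
  obtain ⟨u, w, huw⟩ : ∃ u w : RatFunc K, r = C u + C w * X := ⟨_, _, hr2⟩
  refine ⟨u, w, ?_⟩
  rw [hq, huw]
  simp only [map_add, map_mul, AdjoinRoot.mk_C, AdjoinRoot.mk_X]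
  rfl

/-- An element of `F` fixed by the involution lies in `K(x)` (characteristic `≠ 2`). -/
lemma gt_mem_of_inv_eq (h2 : (2 : K) ≠ 0) {z : gt_F W} (hz : gt_inv W z = z) :
    ∃ u : RatFunc K, z = algebraMap (RatFunc K) (gt_F W) u := by
  obtain ⟨u, w, rfl⟩ := gt_exists_decomp W z
  refine ⟨u, ?_⟩
  rw [map_add, map_mul, gt_inv_algebraMap, gt_inv_algebraMap, gt_inv_y] at hz
  have h2F : (2 : gt_F W) ≠ 0 := by
    have : (2 : gt_F W) = algebraMap K (gt_F W) 2 := (map_ofNat (algebraMap K (gt_F W)) 2).symm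
    rw [this, Ne, map_eq_zero]
    exact h2
  have hy0 : gt_y W ≠ 0 := by
    intro hy
    have := gt_y_sq W
    rw [hy, zero_pow two_ne_zero] at this
    exact gt_cubicR_ne_zero W ((map_eq_zero _).1 this.symm)
  have : (2 : gt_F W) * (algebraMap (RatFunc K) (gt_F W) w * gt_y W) = 0 := by
    linear_combination -hz
  rcases mul_eq_zero.1 this with h | h
  · exact absurd h h2F
  · rw [h, add_zero]

end Fermat.Agent.S13
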