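import Mathlib
import Fermat.Agent.S05.KernelReduction

/-!
# S13 [DIV], Route B: valuations trivial on the constants

* existence of a valuation subring containing `K` in which a given transcendental element is a
  nonunit;
* valuations of polynomial expressions;
* the kernel of reduction `E₁(v)` is a subgroup (from the frozen S05 estimates).
-/

set_option autoImplicit false

open Polynomial WeierstrassCurve WeierstrassCurve.Affine

namespace Fermat.Agent.S13

section exists_val

variable {K F : Type*} [Field K] [Field F] [Algebra K F]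

/-- For `t` transcendental over `K` there is a valuation subring of `F` containing `K` in which
`t` is a nonunit. -/
lemma gt_exists_valuationSubring (t : F) (ht : Transcendental K t) :
    ∃ B : ValuationSubring F, (∀ c : K, algebraMap K F c ∈ B) ∧ t ∈ B.nonunits := by
  set A : Subring F := (Polynomial.aeval (R := K) t).range.toSubring with hA
  have htA : t ∈ A := ⟨X, aeval_X t⟩
  set I : Ideal A := Ideal.span {⟨t, htA⟩} with hI
  have hItop : I ≠ ⊤ := by
    intro h
    have h1 : (1 : A) ∈ I := by rw [h]; trivial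
    obtain ⟨a, ha⟩ := Ideal.mem_span_singleton'.1 h1
    obtain ⟨q, hq⟩ := a.2
    have h2 : (a : F) * t = 1 := by
      have := congrArg (Subtype.val) ha
      simpa using this
    apply ht
    refine ⟨q * X - 1, ?_, ?_⟩
    · intro h0
      have := congrArg (fun r => r.coeff 0) h0
      simp at this
    · rw [map_sub, map_mul, aeval_X, map_one]
      have hq' : (Polynomial.aeval t) q = (a : F) := hq
      rw [hq', h2, sub_self]
  obtain ⟨B, hAB, hIB⟩ := Ideal.image_subset_nonunits_valuationSubring I hItop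
  refine ⟨B, ?_, ?_⟩
  · intro c
    apply hAB
    exact ⟨C c, by simp⟩
  · apply hIB
    exact ⟨⟨t, htA⟩, Ideal.mem_span_singleton_self _, rfl⟩

/-- The valuation of a valuation subring containing `K` is trivial on `K`. -/
lemma gt_valuation_const (B : ValuationSubring F) (hB : ∀ c : K, algebraMap K F c ∈ B) {c : K}
    (hc : c ≠ 0) : B.valuation (algebraMap K F c) = 1 := by
  have h1 : B.valuation (algebraMap K F c) ≤ 1 := (B.valuation_le_one_iff _).2 (hB c)
  have h2 : B.valuation (algebraMap K F c⁻¹) ≤ 1 := (B.valuation_le_one_iff _).2 (hB c⁻¹)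
  rw [map_inv₀, map_inv₀] at h2
  have h0 : B.valuation (algebraMap K F c) ≠ 0 := by
    rw [Ne, map_eq_zero, map_eq_zero]
    exact hc
  exact le_antisymm h1 ((inv_le_one₀ (zero_lt_iff.2 h0)).1 h2)

end exists_val

section poly

variable {K F Γ : Type*} [Field K] [Field F] [Algebra K F] [LinearOrderedCommGroupWithZero Γ]
  (v : Valuation F Γ) (hv : ∀ c : K, c ≠ 0 → v (algebraMap K F c) = 1)

include hv

lemma gt_val_const_le (c : K) : v (algebraMap K F c) ≤ 1 := by
  by_cases hc : c = 0
  · rw [hc, map_zero, map_zero]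
    exact zero_le_one
  · exact (hv c hc).le

lemma gt_val_aeval_le_one {x : F} (hx : v x ≤ 1) (q : K[X]) : v (aeval x q) ≤ 1 := by
  induction q using Polynomial.induction_on' with
  | add p q hp hq =>
    rw [map_add]
    exact v.map_add_le hp hq
  | monomial n a =>
    rw [← C_mul_X_pow_eq_monomial, map_mul, aeval_C, map_pow, aeval_X, map_mul, map_pow]
    exact mul_le_one' (gt_val_const_le v hv a) (pow_le_one₀ zero_le hx)

lemma gt_val_le_one_of_sub_lt {x : F} {x₀ : K} (hx : v (x - algebraMap K F x₀) < 1) :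
    v x ≤ 1 := by
  have : x = (x - algebraMap K F x₀) + algebraMap K F x₀ := by ring
  rw [this]
  exact v.map_add_le hx.le (gt_val_const_le v hv x₀)

lemma gt_val_aeval_sub_lt {x : F} {x₀ : K} (hx : v (x - algebraMap K F x₀) < 1) (q : K[X]) :
    v (aeval x q - algebraMap K F (q.eval x₀)) < 1 := by
  have hq : q = C (q.eval x₀) + (X - C x₀) * (q /ₘ (X - C x₀)) := by
    conv_lhs => rw [← modByMonic_add_div q (X - C x₀), modByMonic_X_sub_C_eq_C_eval]
  have h1 : aeval x q - algebraMap K F (q.eval x₀) =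
      (x - algebraMap K F x₀) * aeval x (q /ₘ (X - C x₀)) := by
    conv_lhs => rw [hq]
    simp
  rw [h1, map_mul]
  have h2 := gt_val_aeval_le_one v hv (gt_val_le_one_of_sub_lt v hv hx) (q /ₘ (X - C x₀))
  calc v (x - algebraMap K F x₀) * v (aeval x (q /ₘ (X - C x₀)))
      ≤ v (x - algebraMap K F x₀) * 1 := by gcongr
    _ = v (x - algebraMap K F x₀) := mul_one _
    _ < 1 := hx

lemma gt_val_aeval_lt_one {x : F} {x₀ : K} (hx : v (x - algebraMap K F x₀) < 1) {q : K[X]}
    (hq : q.eval x₀ = 0) : v (aeval x q) < 1 := by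
  have := gt_val_aeval_sub_lt v hv hx q
  rwa [hq, map_zero, sub_zero] at this

lemma gt_val_aeval_eq_one {x : F} {x₀ : K} (hx : v (x - algebraMap K F x₀) < 1) {q : K[X]}
    (hq : q.eval x₀ ≠ 0) : v (aeval x q) = 1 := by
  have h1 := gt_val_aeval_sub_lt v hv hx q
  have h2 : v (algebraMap K F (q.eval x₀)) = 1 := hv _ hq
  have : aeval x q = algebraMap K F (q.eval x₀) + (aeval x q - algebraMap K F (q.eval x₀)) := by
    ring
  rw [this, Valuation.map_add_eq_of_lt_left v (by rw [h2]; exact h1), h2]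

lemma gt_val_aeval_le_pow {x : F} (hx : 1 ≤ v x) (q : K[X]) :
    v (aeval x q) ≤ v x ^ q.natDegree := by
  rw [aeval_eq_sum_range]
  refine v.map_sum_le fun i hi => ?_
  rw [Finset.mem_range] at hi
  rw [Algebra.smul_def, map_mul, map_pow]
  calc v (algebraMap K F (q.coeff i)) * v x ^ i ≤ 1 * v x ^ q.natDegree :=
        mul_le_mul' (gt_val_const_le v hv _) (pow_le_pow_right₀ hx (by omega))
    _ = v x ^ q.natDegree := one_mul _

lemma gt_val_aeval_of_one_lt {x : F} (hx : 1 < v x) {q : K[X]} (hq : q ≠ 0) :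
    v (aeval x q) = v x ^ q.natDegree := by
  have hlead : v (aeval x (C q.leadingCoeff * X ^ q.natDegree)) = v x ^ q.natDegree := by
    rw [map_mul, aeval_C, map_pow, aeval_X, map_mul, map_pow,
      hv _ (leadingCoeff_ne_zero.2 hq), one_mul]
  have hsplit : aeval x q = aeval x (C q.leadingCoeff * X ^ q.natDegree) + aeval x q.eraseLead := by
    rw [← map_add, add_comm, eraseLead_add_C_mul_X_pow]
  by_cases h0 : q.eraseLead = 0
  · rw [hsplit, h0, map_zero, add_zero, hlead]
  · have hlt : q.eraseLead.natDegree < q.natDegree := by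
      rcases eraseLead_natDegree_lt_or_eraseLead_eq_zero q with h | h
      · exact h
      · exact absurd h h0
    have hsmall : v (aeval x q.eraseLead) < v x ^ q.natDegree :=
      lt_of_le_of_lt (gt_val_aeval_le_pow v hv hx.le _) (pow_lt_pow_right₀ hx hlt)
    rw [hsplit, Valuation.map_add_eq_of_lt_left v (by rw [hlead]; exact hsmall), hlead]

end poly

/-! ### The kernel of reduction -/

section kernel

open Fermat.Agent.S05

variable {F Γ : Type*} [Field F] [LinearOrderedCommGroupWithZero Γ]
  {v : Valuation F Γ} {V : WeierstrassCurve.Affine F}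

/-- The kernel of reduction: the point at infinity and the points with `1 < v x`. -/
def gt_E1 (v : Valuation F Γ) : V.Point → Prop
  | .zero => True
  | .some x _ _ => 1 < v x

@[simp] lemma gt_E1_zero : gt_E1 v (0 : V.Point) := trivial

@[simp] lemma gt_E1_some {x y : F} (h : V.Nonsingular x y) :
    gt_E1 v (Point.some x y h) ↔ 1 < v x := Iff.rfl

lemma gt_inKer_mono {γ γ' : Γ} (h : γ ≤ γ') {P : V.Point} (hP : KR.InKer v γ P) :
    KR.InKer v γ' P := by
  rcases P with _ | ⟨x, y, hxy⟩
  · trivial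
  · exact ⟨hP.1, hP.2.trans h⟩

lemma gt_E1_of_inKer {γ : Γ} {P : V.Point} (hP : KR.InKer v γ P) : gt_E1 v P := by
  rcases P with _ | ⟨x, y, hxy⟩
  · trivial
  · exact hP.1

lemma gt_exists_inKer (hV : KR.IntegralCoeffs v V) {P : V.Point} (hP : gt_E1 v P) :
    ∃ γ : Γ, γ < 1 ∧ KR.InKer v γ P := by
  rcases P with _ | ⟨x, y, hxy⟩
  · exact ⟨0, zero_lt_one, trivial⟩
  · exact ⟨v (x / y), KR.val_t_lt_one hV hxy.1 hP, hP, le_rfl⟩

variable [DecidableEq F]

lemma gt_E1_add (hV : KR.IntegralCoeffs v V) {P Q : V.Point} (hP : gt_E1 v P)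
    (hQ : gt_E1 v Q) : gt_E1 v (P + Q) := by
  obtain ⟨γ₁, h₁, hP'⟩ := gt_exists_inKer hV hP
  obtain ⟨γ₂, h₂, hQ'⟩ := gt_exists_inKer hV hQ
  have hmax : max γ₁ γ₂ < 1 := max_lt h₁ h₂
  exact gt_E1_of_inKer (KR.inKer_add hV hmax (gt_inKer_mono (le_max_left _ _) hP')
    (gt_inKer_mono (le_max_right _ _) hQ')).1

lemma gt_E1_neg {P : V.Point} (hP : gt_E1 v P) : gt_E1 v (-P) := by
  rcases P with _ | ⟨x, y, hxy⟩
  · exact hP
  · exact hP

lemma gt_E1_sub (hV : KR.IntegralCoeffs v V) {P Q : V.Point} (hP : gt_E1 v P)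
    (hQ : gt_E1 v Q) : gt_E1 v (P - Q) := by
  rw [sub_eq_add_neg]
  exact gt_E1_add hV hP (gt_E1_neg hQ)

lemma gt_E1_nsmul (hV : KR.IntegralCoeffs v V) {P : V.Point} (hP : gt_E1 v P) (n : ℕ) :
    gt_E1 v (n • P) := by
  induction n with
  | zero => simp
  | succ n ih =>
    rw [succ_nsmul]
    exact gt_E1_add hV ih hP

end kernel

end Fermat.Agent.S13
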