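import Mathlib
import Fermat.Agent.S05.ShortForm
import Fermat.Agent.S05.Reduction
import Fermat.Agent.S05.KernelReduction
import Fermat.Agent.S13.GenericTorsion.Field
import Fermat.Agent.S13.GenericTorsion.Valuation

/-!
# S13 [DIV], Route B: the generic point and its multiples

The generic point `P = (x, y)` of a short Weierstrass curve over its function field `F`, the
constant points, and the behaviour of `n • P` at a place at infinity.
-/

set_option autoImplicit false
set_option linter.unusedSectionVars false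

open Polynomial WeierstrassCurve WeierstrassCurve.Affine Fermat.Agent.S05

namespace Fermat.Agent.S13

variable {K : Type*} [Field K] (W : WeierstrassCurve.Affine K)

noncomputable instance gt_decEq : DecidableEq (gt_F W) := Classical.decEq _

/-! ### Transcendence -/

lemma gt_x_transcendental : Transcendental K (gt_x W) := by
  unfold gt_x
  rw [transcendental_algebraMap_iff (algebraMap (RatFunc K) (gt_F W)).injective]
  exact RatFunc.transcendental_X

lemma gt_x_sub_transcendental (c : K) :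
    Transcendental K (gt_x W - algebraMap K (gt_F W) c) := by
  intro h
  apply gt_x_transcendental W
  have := h.add (isAlgebraic_algebraMap (R := K) (A := gt_F W) c)
  simpa using this

lemma gt_x_inv_transcendental : Transcendental K (gt_x W)⁻¹ := by
  intro h
  apply gt_x_transcendental W
  have := h.inv
  simpa using this

lemma gt_aeval_x_ne_zero {q : K[X]} (hq : q ≠ 0) : aeval (gt_x W) q ≠ 0 := by
  intro h
  exact gt_x_transcendental W ⟨q, hq, h⟩

/-! ### Integrality of the coefficients -/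

section val

variable {Γ : Type*} [LinearOrderedCommGroupWithZero Γ] (v : Valuation (gt_F W) Γ)
  (hv : ∀ c : K, c ≠ 0 → v (algebraMap K (gt_F W) c) = 1)

include hv

lemma gt_integralCoeffs : KR.IntegralCoeffs v (W⁄(gt_F W)) :=
  ⟨gt_val_const_le v hv _, gt_val_const_le v hv _, gt_val_const_le v hv _,
    gt_val_const_le v hv _, gt_val_const_le v hv _⟩

lemma gt_val_natCast [CharZero K] {n : ℕ} (hn : n ≠ 0) : v ((n : ℕ) : gt_F W) = 1 := by
  have : ((n : ℕ) : gt_F W) = algebraMap K (gt_F W) (n : K) := (map_natCast _ n).symm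
  rw [this]
  exact hv _ (Nat.cast_ne_zero.2 hn)

lemma gt_val_two [CharZero K] : v (2 : gt_F W) = 1 := by
  have := gt_val_natCast W v hv (n := 2) (by norm_num)
  simpa using this

end val

/-! ### The generic point -/

variable (hW : IsShort W) (hΔ : W.Δ ≠ 0)

/-- The generic point. -/
noncomputable def gt_gen : (W⁄(gt_F W)).Point :=
  Point.some (gt_x W) (gt_y W) (gt_generic_nonsingular W hW hΔ)

/-- A valuation at infinity: trivial on `K`, with `1 < v x`. -/
lemma gt_exists_val_infty :
    ∃ B : ValuationSubring (gt_F W), (∀ c : K, c ≠ 0 → B.valuation (algebraMap K (gt_F W) c) = 1) ∧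
      1 < B.valuation (gt_x W) := by
  obtain ⟨B, hB, hx⟩ := gt_exists_valuationSubring (K := K) _ (gt_x_inv_transcendental W)
  refine ⟨B, fun c hc => gt_valuation_const B hB hc, ?_⟩
  have h1 : B.valuation (gt_x W)⁻¹ < 1 := hx
  rw [map_inv₀] at h1
  have hx0 : gt_x W ≠ 0 := by
    have := gt_aeval_x_ne_zero W (q := X) X_ne_zero
    rwa [aeval_X] at this
  have h0 : B.valuation (gt_x W) ≠ 0 := (_root_.map_ne_zero _).2 hx0
  exact (inv_lt_one₀ (zero_lt_iff.2 h0)).1 h1

/-- A valuation centred at `x = x₀`: trivial on `K`, with `v (x - x₀) < 1`. -/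
lemma gt_exists_val_at (x₀ : K) :
    ∃ B : ValuationSubring (gt_F W), (∀ c : K, c ≠ 0 → B.valuation (algebraMap K (gt_F W) c) = 1) ∧
      B.valuation (gt_x W - algebraMap K (gt_F W) x₀) < 1 := by
  obtain ⟨B, hB, hx⟩ := gt_exists_valuationSubring (K := K) _ (gt_x_sub_transcendental W x₀)
  exact ⟨B, fun c hc => gt_valuation_const B hB hc, hx⟩

section infty

variable [CharZero K] {Γ : Type*} [LinearOrderedCommGroupWithZero Γ] (v : Valuation (gt_F W) Γ)
  (hv : ∀ c : K, c ≠ 0 → v (algebraMap K (gt_F W) c) = 1) (hx : 1 < v (gt_x W))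

include hv hx

/-- The generic point has infinite order. -/
lemma gt_nsmul_gen_ne_zero {n : ℕ} (hn : n ≠ 0) : n • gt_gen W hW hΔ ≠ 0 :=
  KR.nsmul_ne_zero_of_one_lt_val (gt_integralCoeffs W v hv) (gt_val_natCast W v hv hn)
    (gt_generic_nonsingular W hW hΔ) hx

/-- The multiple `n • P` of the generic point is an affine point `(X, Y)` with `v X = v x` at
every place at infinity. -/
lemma gt_nsmul_gen_val {n : ℕ} (hn : n ≠ 0) :
    ∃ (X Y : gt_F W) (h : (W⁄(gt_F W)).Nonsingular X Y),
      n • gt_gen W hW hΔ = Point.some X Y h ∧ v X = v (gt_x W) := by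
  have hV := gt_integralCoeffs W v hv
  have hns := gt_generic_nonsingular W hW hΔ
  set γ := v (gt_x W / gt_y W) with hγ
  have hγ1 : γ < 1 := KR.val_t_lt_one hV hns.1 hx
  have hγ0 : γ ≠ 0 := KR.val_t_ne_zero hV hns.1 hx
  have hP : KR.InKer v γ (gt_gen W hW hΔ) := ⟨hx, le_rfl⟩
  obtain ⟨h1, h2⟩ := KR.inKer_nsmul hV hγ1 hP n
  have hne := gt_nsmul_gen_ne_zero W hW hΔ v hv hx hn
  rcases hQ : n • gt_gen W hW hΔ with _ | ⟨X, Y, hXY⟩
  · exact absurd hQ hne
  · refine ⟨X, Y, hXY, rfl, ?_⟩
    rw [hQ] at h1 h2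
    have hX : 1 < v X := h1.1
    have ht : v (X / Y - n * (gt_x W / gt_y W)) ≤ γ ^ 2 := h2
    have hnt : v ((n : gt_F W) * (gt_x W / gt_y W)) = γ := by
      rw [map_mul, gt_val_natCast W v hv hn, one_mul]
    have hlt : γ ^ 2 < γ := KR.sq_lt_self_of_lt_one hγ0 hγ1
    have hXY' : v (X / Y) = γ := by
      have : X / Y = (n : gt_F W) * (gt_x W / gt_y W) + (X / Y - n * (gt_x W / gt_y W)) := by
        ring
      rw [this, Valuation.map_add_eq_of_lt_left v (by rw [hnt]; exact lt_of_le_of_lt ht hlt), hnt]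
    have e1 := KR.val_x_inv_eq hV hXY.1 hX
    have e2 := KR.val_x_inv_eq hV hns.1 hx
    rw [hXY'] at e1
    rw [← hγ] at e2
    exact inv_injective (e1.trans e2.symm)

end infty

/-! ### Constant points and reduction at a finite place -/

section const

variable [DecidableEq K]

/-- The constant points. -/
noncomputable def gt_cst : (W⁄K).Point →+ (W⁄(gt_F W)).Point :=
  Point.map (W' := W) (Algebra.ofId K (gt_F W))

lemma gt_cst_some {x y : K} (h : (W⁄K).Nonsingular x y) :
    ∃ h' : (W⁄(gt_F W)).Nonsingular (algebraMap K (gt_F W) x) (algebraMap K (gt_F W) y),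
      gt_cst W (Point.some x y h) = Point.some _ _ h' :=
  ⟨_, rfl⟩

variable {Γ : Type*} [LinearOrderedCommGroupWithZero Γ] (v : Valuation (gt_F W) Γ)
  (hv : ∀ c : K, c ≠ 0 → v (algebraMap K (gt_F W) c) = 1)

include hv

/-- A constant point in the kernel of reduction is zero. -/
lemma gt_cst_eq_zero_of_E1 {P : (W⁄K).Point} (hP : gt_E1 v (gt_cst W P)) : P = 0 := by
  rcases P with _ | ⟨x, y, h⟩
  · rfl
  · exfalso
    obtain ⟨h', he⟩ := gt_cst_some W h
    rw [he] at hP
    exact absurd (gt_val_const_le v hv x) (not_le.2 hP)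

end const

section reduce

variable [DecidableEq K] [CharZero K]
  {Γ : Type*} [LinearOrderedCommGroupWithZero Γ] (v : Valuation (gt_F W) Γ)
  (hv : ∀ c : K, c ≠ 0 → v (algebraMap K (gt_F W) c) = 1)

include hW hv

/-- On the short curve over `F`, `Y² = f(X)`. -/
lemma gt_short_eqn {X Y : gt_F W} (h : (W⁄(gt_F W)).Nonsingular X Y) :
    Y ^ 2 = aeval X (gt_cubic W) := by
  have := (gt_isShort_baseChange W hW (gt_F W)).eqn h
  rw [gt_baseChange_a₂, gt_baseChange_a₄] at this
  rw [this, gt_cubic]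
  simp

omit hv in
/-- On the short curve over `K`, `y² = f(x)`. -/
lemma gt_short_eqn_const {x y : K} (h : (W⁄K).Nonsingular x y) :
    y ^ 2 = (gt_cubic W).eval x := by
  have := (gt_isShort_baseChange W hW K).eqn h
  rw [gt_baseChange_a₂, gt_baseChange_a₄] at this
  rw [this, gt_cubic]
  simp

/-- **Reduction at a finite place.** If `(X, Y)` is a point over `F` and `(x₁, y₁)` a point over
`K` with `X ≡ x₁` and `Y ≡ y₁` modulo the maximal ideal of `v`, then the difference of the two
points lies in the kernel of reduction. -/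
lemma gt_sub_cst_mem_E1 {X Y : gt_F W} (h : (W⁄(gt_F W)).Nonsingular X Y) {x₁ y₁ : K}
    (h₁ : (W⁄K).Nonsingular x₁ y₁) (hX : v (X - algebraMap K (gt_F W) x₁) < 1)
    (hY : v (Y - algebraMap K (gt_F W) y₁) < 1) :
    gt_E1 v (Point.some X Y h - gt_cst W (Point.some x₁ y₁ h₁)) := by
  obtain ⟨h₁', he⟩ := gt_cst_some W h₁
  rw [he]
  by_cases hne : Point.some X Y h = Point.some _ _ h₁'
  · rw [hne, sub_self]
    exact gt_E1_zero
  have hVs := gt_isShort_baseChange W hW (gt_F W)
  have hKs := gt_isShort_baseChange W hW K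
  have hns : v (algebraMap K (gt_F W) y₁) = v 1 ∨
      v (3 * (algebraMap K (gt_F W) x₁) ^ 2 + 2 * (W⁄(gt_F W)).a₂ * algebraMap K (gt_F W) x₁ +
        (W⁄(gt_F W)).a₄) = v 1 := by
    rw [map_one]
    have hn := (WeierstrassCurve.Affine.nonsingular_iff' _ _).1 h₁
    rcases hn.2 with hn2 | hn2
    · right
      rw [hKs.a₁, zero_mul, zero_sub, neg_ne_zero] at hn2
      rw [gt_baseChange_a₂, gt_baseChange_a₄] at hn2 ⊢
      have : (3 : gt_F W) * (algebraMap K (gt_F W) x₁) ^ 2 +
          2 * algebraMap K (gt_F W) W.a₂ * algebraMap K (gt_F W) x₁ + algebraMap K (gt_F W) W.a₄ =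
          algebraMap K (gt_F W) (3 * x₁ ^ 2 + 2 * (algebraMap K K W.a₂) * x₁ +
            algebraMap K K W.a₄) := by
        simp only [map_add, map_mul, map_pow, map_ofNat, Algebra.algebraMap_self,
          RingHom.id_apply]
      rw [this]
      exact hv _ hn2
    · left
      rw [hKs.a₁, hKs.a₃, zero_mul, add_zero, add_zero] at hn2
      exact hv _ (fun h0 => hn2 (by rw [h0, mul_zero]))
  obtain ⟨x₃, y₃, h₃, hsub, hx₃⟩ := sub_mem_kernel v hVs (gt_val_const_le v hv _)
    (gt_val_const_le v hv _) (gt_val_two W v hv) h₁' h 1 (by rw [map_one]) one_ne_zero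
    (by rw [map_one]; exact gt_val_const_le v hv _) (by rw [map_one]; exact hX)
    (by rw [map_one]; exact hY) hns hne
  rw [hsub]
  exact hx₃

variable [IsAlgClosed K]

include hΔ

/-- **Existence of the reduced point.** If `(X, Y)` is a point over `F` with `X ≡ x₁ ∈ K`, there
is a point `P₁` over `K` with `x`-coordinate `x₁` such that `(X, Y) - P₁` lies in the kernel of
reduction. -/
lemma gt_exists_reduction {X Y : gt_F W} (h : (W⁄(gt_F W)).Nonsingular X Y) (x₁ : K)
    (hX : v (X - algebraMap K (gt_F W) x₁) < 1) :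
    ∃ (y₁ : K) (h₁ : (W⁄K).Nonsingular x₁ y₁),
      gt_E1 v (Point.some X Y h - gt_cst W (Point.some x₁ y₁ h₁)) := by
  obtain ⟨y₀, hy₀⟩ := IsAlgClosed.exists_pow_nat_eq ((gt_cubic W).eval x₁) (n := 2) (by norm_num)
  have hKs := gt_isShort_baseChange W hW K
  have hΔK := gt_baseChange_Δ_ne_zero W hΔ K
  have hcub : ∀ y : K, y ^ 2 = (gt_cubic W).eval x₁ → (W⁄K).Nonsingular x₁ y := by
    intro y hy
    refine gt_nonsingular_of_short hKs hΔK ?_
    rw [gt_baseChange_a₂, gt_baseChange_a₄, hy, gt_cubic]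
    simp
  have hprod : v ((Y - algebraMap K (gt_F W) y₀) * (Y + algebraMap K (gt_F W) y₀)) < 1 := by
    have e : (Y - algebraMap K (gt_F W) y₀) * (Y + algebraMap K (gt_F W) y₀) =
        aeval X (gt_cubic W) - algebraMap K (gt_F W) ((gt_cubic W).eval x₁) := by
      rw [← hy₀, ← gt_short_eqn W hW v hv h, map_pow]
      ring
    rw [e]
    exact gt_val_aeval_sub_lt v hv hX _
  by_cases hcase : v (Y - algebraMap K (gt_F W) y₀) < 1
  · exact ⟨y₀, hcub y₀ hy₀, gt_sub_cst_mem_E1 W hW v hv h (hcub y₀ hy₀) hX hcase⟩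
  · have hcase2 : v (Y + algebraMap K (gt_F W) y₀) < 1 := by
      by_contra hc
      rw [not_lt] at hcase hc
      rw [map_mul] at hprod
      exact absurd (one_le_mul_of_one_le_of_one_le hcase hc) (not_le.2 hprod)
    have hy₀' : (-y₀) ^ 2 = (gt_cubic W).eval x₁ := by rw [neg_sq, hy₀]
    refine ⟨-y₀, hcub _ hy₀', gt_sub_cst_mem_E1 W hW v hv h (hcub _ hy₀') hX ?_⟩
    rw [map_neg, sub_neg_eq_add]
    exact hcase2

end reduce

end Fermat.Agent.S13
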