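import Mathlib
import Fermat.Agent.S05.ShortForm
import Fermat.Agent.S05.Reduction
import Fermat.Agent.S05.KernelReduction
import Fermat.Agent.S13.GenericTorsion.Field
import Fermat.Agent.S13.GenericTorsion.Valuation
import Fermat.Agent.S13.GenericTorsion.Generic

/-!
# S13 [DIV], Route B: existence of a non-zero `p`-torsion point

Main theorem: a short Weierstrass elliptic curve over an algebraically closed field of
characteristic zero has a non-zero point killed by `p`, for every odd `p > 1`.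
-/

set_option autoImplicit false
set_option linter.unusedSectionVars false

open Polynomial WeierstrassCurve WeierstrassCurve.Affine Fermat.Agent.S05

namespace Fermat.Agent.S13

variable {K : Type*} [Field K] (W : WeierstrassCurve.Affine K) (hW : IsShort W) (hΔ : W.Δ ≠ 0)

include hW in
/-- The discriminant of a short curve. -/
lemma gt_short_Δ : W.Δ = 16 * W.a₄ ^ 2 * (W.a₂ ^ 2 - 4 * W.a₄) := by
  rw [WeierstrassCurve.Δ, WeierstrassCurve.b₂, WeierstrassCurve.b₄, WeierstrassCurve.b₆,
    WeierstrassCurve.b₈, hW.a₁, hW.a₃, hW.a₆]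
  ring

include hW hΔ in
lemma gt_a₄_ne_zero : W.a₄ ≠ 0 := by
  intro h
  apply hΔ
  rw [gt_short_Δ W hW, h]
  ring

/-- The involution maps the generic point to its negative. -/
lemma gt_map_inv_gen :
    Point.map (W' := W) (gt_inv W) (gt_gen W hW hΔ) = -gt_gen W hW hΔ := by
  have hVs := gt_isShort_baseChange W hW (gt_F W)
  unfold gt_gen
  rw [Point.map_some, hVs.neg_some]
  congr 1
  · exact gt_inv_x W
  · exact gt_inv_y W

/-- The `x`-coordinate of a multiple of the generic point is fixed by the involution. -/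
lemma gt_inv_X_of_nsmul {n : ℕ} {X Y : gt_F W} (h : (W⁄(gt_F W)).Nonsingular X Y)
    (hQ : n • gt_gen W hW hΔ = Point.some X Y h) : gt_inv W X = X := by
  have h1 : Point.map (W' := W) (gt_inv W) (n • gt_gen W hW hΔ) = -(n • gt_gen W hW hΔ) := by
    rw [map_nsmul, gt_map_inv_gen, smul_neg]
  rw [hQ, Point.map_some, Point.neg_some] at h1
  exact (Point.some.inj h1).1

/-- The `x`-coordinate of a multiple of the generic point is a rational function of `x`. -/
lemma gt_X_mem_of_nsmul [CharZero K] {n : ℕ} {X Y : gt_F W}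
    (h : (W⁄(gt_F W)).Nonsingular X Y) (hQ : n • gt_gen W hW hΔ = Point.some X Y h) :
    ∃ A B : K[X], B.Monic ∧ IsCoprime A B ∧ X = aeval (gt_x W) A / aeval (gt_x W) B := by
  obtain ⟨u, hu⟩ := gt_mem_of_inv_eq W two_ne_zero (gt_inv_X_of_nsmul W hW hΔ h hQ)
  refine ⟨u.num, u.denom, RatFunc.monic_denom u, RatFunc.isCoprime_num_denom u, ?_⟩
  rw [hu, ← gt_algebraMap_polynomial, ← gt_algebraMap_polynomial, ← map_div₀,
    RatFunc.num_div_denom]

section cases

variable [IsAlgClosed K] [CharZero K] [DecidableEq K]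

/-- **Case 1**: the denominator of the `x`-coordinate of `p • P` has a root `x₀`; then a point
above `x₀` is a `p`-torsion point. -/
lemma gt_torsion_of_root {p : ℕ} {X Y : gt_F W} (h : (W⁄(gt_F W)).Nonsingular X Y)
    (hQ : p • gt_gen W hW hΔ = Point.some X Y h) {A B : K[X]} (hB0 : B ≠ 0)
    (hcop : IsCoprime A B) (hX : X = aeval (gt_x W) A / aeval (gt_x W) B) {x₀ : K}
    (hx₀ : B.eval x₀ = 0) : ∃ P : (W⁄K).Point, P ≠ 0 ∧ p • P = 0 := by
  -- `A x₀ ≠ 0`
  have hA : A.eval x₀ ≠ 0 := by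
    obtain ⟨a, b, hab⟩ := hcop
    intro hA
    have := congrArg (Polynomial.eval x₀) hab
    rw [eval_add, eval_mul, eval_mul, hA, hx₀, mul_zero, mul_zero, add_zero, eval_one] at this
    exact zero_ne_one this
  obtain ⟨Bv, hv, hx⟩ := gt_exists_val_at W x₀
  set v := Bv.valuation with hvdef
  have hV := gt_integralCoeffs W v hv
  -- `X` has a pole
  have hBx : v (aeval (gt_x W) B) < 1 := gt_val_aeval_lt_one v hv hx hx₀
  have hAx : v (aeval (gt_x W) A) = 1 := gt_val_aeval_eq_one v hv hx hA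
  have hBx0 : v (aeval (gt_x W) B) ≠ 0 := (_root_.map_ne_zero _).2 (gt_aeval_x_ne_zero W hB0)
  have hXv : 1 < v X := by
    rw [hX, map_div₀, hAx, one_div]
    exact (one_lt_inv₀ (zero_lt_iff.2 hBx0)).2 hBx
  -- the point above `x₀`
  obtain ⟨y₀, h₀, hT⟩ := gt_exists_reduction W hW hΔ v hv (gt_generic_nonsingular W hW hΔ) x₀ hx
  refine ⟨Point.some x₀ y₀ h₀, Point.some_ne_zero _, ?_⟩
  apply gt_cst_eq_zero_of_E1 W v hv
  have h1 : gt_E1 v (p • (gt_gen W hW hΔ - gt_cst W (Point.some x₀ y₀ h₀))) :=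
    gt_E1_nsmul hV hT p
  have h2 : gt_E1 v (p • gt_gen W hW hΔ) := by
    rw [hQ]
    exact hXv
  have h3 := gt_E1_sub hV h2 h1
  have e : p • gt_gen W hW hΔ - p • (gt_gen W hW hΔ - gt_cst W (Point.some x₀ y₀ h₀)) =
      gt_cst W (p • Point.some x₀ y₀ h₀) := by
    rw [map_nsmul, nsmul_sub]
    abel
  rwa [e] at h3

/-- In the polynomial case `x(p • P) = A(x)`, the polynomial `A` fixes the roots of the cubic
(the `x`-coordinates of the points of order two), if `p` is odd. -/
lemma gt_eval_root_eq {p : ℕ} (hp : Odd p) {X Y : gt_F W} (h : (W⁄(gt_F W)).Nonsingular X Y)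
    (hQ : p • gt_gen W hW hΔ = Point.some X Y h) {A : K[X]} (hX : X = aeval (gt_x W) A) {e : K}
    (he : (gt_cubic W).eval e = 0) : A.eval e = e := by
  obtain ⟨Bv, hv, hx⟩ := gt_exists_val_at W e
  set v := Bv.valuation with hvdef
  have hV := gt_integralCoeffs W v hv
  have hKs := gt_isShort_baseChange W hW K
  -- the point of order two above `e`
  obtain ⟨y₁, h₁, hT⟩ := gt_exists_reduction W hW hΔ v hv (gt_generic_nonsingular W hW hΔ) e hx
  have hy₁ : y₁ = 0 := by
    have := gt_short_eqn_const W hW h₁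
    rw [he] at this
    exact pow_eq_zero_iff (two_ne_zero) |>.1 this
  have h2P : Point.some e y₁ h₁ + Point.some e y₁ h₁ = 0 := hKs.add_self_of_y_eq_zero h₁ hy₁
  have hpP : p • Point.some e y₁ h₁ = Point.some e y₁ h₁ := by
    obtain ⟨k, rfl⟩ := hp
    rw [add_smul, one_smul, mul_comm, mul_smul, two_smul, h2P, smul_zero, zero_add]
  have h1 : gt_E1 v (p • gt_gen W hW hΔ - gt_cst W (Point.some e y₁ h₁)) := by
    have := gt_E1_nsmul hV hT p
    have e' : p • (gt_gen W hW hΔ - gt_cst W (Point.some e y₁ h₁)) =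
        p • gt_gen W hW hΔ - gt_cst W (Point.some e y₁ h₁) := by
      rw [nsmul_sub, ← map_nsmul, hpP]
    rw [← e']
    exact this
  -- the reduction of `p • P`
  have hXe : v (X - algebraMap K (gt_F W) (A.eval e)) < 1 := by
    rw [hX]
    exact gt_val_aeval_sub_lt v hv hx A
  obtain ⟨y₂, h₂, hT₂⟩ := gt_exists_reduction W hW hΔ v hv h (A.eval e) hXe
  rw [hQ] at h1
  have h3 := gt_E1_sub hV h1 hT₂
  have e3 : Point.some X Y h - gt_cst W (Point.some e y₁ h₁) -
      (Point.some X Y h - gt_cst W (Point.some (A.eval e) y₂ h₂)) =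
      gt_cst W (Point.some (A.eval e) y₂ h₂ - Point.some e y₁ h₁) := by
    rw [map_sub]
    abel
  rw [e3] at h3
  have h4 := gt_cst_eq_zero_of_E1 W v hv h3
  rw [sub_eq_zero] at h4
  exact (Point.some.inj h4).1

/-- **Case 2**: the `x`-coordinate of `p • P` is not a polynomial in `x`. -/
lemma gt_not_polynomial {p : ℕ} (hp : Odd p) (hp1 : 1 < p) {Xp Yp : gt_F W}
    (h : (W⁄(gt_F W)).Nonsingular Xp Yp) (hQ : p • gt_gen W hW hΔ = Point.some Xp Yp h)
    {A : K[X]} (hX : Xp = aeval (gt_x W) A) : False := by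
  have hp0 : p ≠ 0 := by omega
  obtain ⟨Binf, hvinf, hxinf⟩ := gt_exists_val_infty W
  set v := Binf.valuation with hvdef
  -- `A` has degree one
  obtain ⟨X', Y', h', hQ', hvX⟩ := gt_nsmul_gen_val W hW hΔ v hvinf hxinf hp0
  rw [hQ] at hQ'
  obtain ⟨rfl, rfl⟩ := Point.some.inj hQ'
  have hA0 : A ≠ 0 := by
    rintro rfl
    rw [map_zero] at hX
    rw [hX, map_zero] at hvX
    exact absurd hvX.symm (ne_of_gt (zero_lt_one.trans hxinf))
  have hdeg : A.natDegree = 1 := by
    have h1 := gt_val_aeval_of_one_lt v hvinf hxinf hA0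
    rw [← hX, hvX] at h1
    have h2 : v (gt_x W) ^ 1 = v (gt_x W) ^ A.natDegree := by rw [pow_one]; exact h1
    exact ((pow_right_injective₀ (zero_lt_one.trans hxinf) (ne_of_gt hxinf)) h2).symm
  -- `A` fixes the roots `0` and `e ≠ 0` of the cubic
  have hf0 : (gt_cubic W).eval 0 = 0 := by simp [gt_cubic]
  have hA0' := gt_eval_root_eq W hW hΔ hp h hQ hX hf0
  obtain ⟨e, he⟩ := IsAlgClosed.exists_root (X ^ 2 + C W.a₂ * X + C W.a₄ : K[X]) (by
    have : (X ^ 2 + C W.a₂ * X + C W.a₄ : K[X]).degree = 2 := by compute_degree!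
    rw [this]
    norm_num)
  have he' : e ^ 2 + W.a₂ * e + W.a₄ = 0 := by simpa using he
  have he0 : e ≠ 0 := by
    rintro rfl
    apply gt_a₄_ne_zero W hW hΔ
    simpa using he'
  have hfe : (gt_cubic W).eval e = 0 := by
    simp only [gt_cubic, eval_add, eval_mul, eval_pow, eval_X, eval_C]
    linear_combination e * he'
  have hAe := gt_eval_root_eq W hW hΔ hp h hQ hX hfe
  have hAX : A = X := by
    rw [eq_X_add_C_of_natDegree_le_one hdeg.le] at hA0' hAe ⊢
    simp only [eval_add, eval_mul, eval_C, eval_X, mul_zero, zero_add] at hA0' hAe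
    rw [hA0', add_zero] at hAe
    have : A.coeff 1 = 1 := by
      have := mul_right_cancel₀ he0 (hAe.trans (one_mul e).symm)
      exact this
    rw [hA0', this]
    simp
  -- hence `p • P = ± P`
  rw [hAX, aeval_X] at hX
  subst hX
  have hns := gt_generic_nonsingular W hW hΔ
  have hY : Yp = gt_y W ∨ Yp = -gt_y W := by
    have e1 := gt_short_eqn W hW v hvinf h
    have e2 := gt_short_eqn W hW v hvinf hns
    have : (Yp - gt_y W) * (Yp + gt_y W) = 0 := by linear_combination e1 - e2
    rcases mul_eq_zero.1 this with h0 | h0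
    · left; linear_combination h0
    · right; linear_combination h0
  have hVs := gt_isShort_baseChange W hW (gt_F W)
  rcases hY with rfl | rfl
  · -- `p • P = P`
    have : (p - 1) • gt_gen W hW hΔ = 0 := by
      have e : p • gt_gen W hW hΔ = gt_gen W hW hΔ := hQ
      have : p = (p - 1) + 1 := by omega
      rw [this, add_smul, one_smul] at e
      exact add_eq_right.1 e
    exact gt_nsmul_gen_ne_zero W hW hΔ v hvinf hxinf (n := p - 1) (by omega) this
  · -- `p • P = - P`
    have : (p + 1) • gt_gen W hW hΔ = 0 := by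
      have e : p • gt_gen W hW hΔ = -gt_gen W hW hΔ := by
        rw [hQ]
        unfold gt_gen
        rw [hVs.neg_some]
      rw [add_smul, one_smul, e, neg_add_cancel]
    exact gt_nsmul_gen_ne_zero W hW hΔ v hvinf hxinf (n := p + 1) (by omega) this

include hW hΔ in
/-- **Existence of torsion** (base-change form). -/
theorem gt_exists_torsion_baseChange (p : ℕ) (hp : Odd p) (hp1 : 1 < p) :
    ∃ P : (W⁄K).Point, P ≠ 0 ∧ p • P = 0 := by
  have hp0 : p ≠ 0 := by omega
  obtain ⟨Binf, hvinf, hxinf⟩ := gt_exists_val_infty W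
  obtain ⟨X, Y, h, hQ, -⟩ := gt_nsmul_gen_val W hW hΔ Binf.valuation hvinf hxinf hp0
  obtain ⟨A, B, hBm, hcop, hX⟩ := gt_X_mem_of_nsmul W hW hΔ h hQ
  by_cases hdeg : B.degree = 0
  · exfalso
    have hB1 : B = 1 := by
      have := eq_C_of_degree_eq_zero hdeg
      rw [this] at hBm ⊢
      have hc : B.coeff 0 = 1 := by simpa [Monic] using hBm
      rw [hc, map_one]
    rw [hB1, map_one, div_one] at hX
    exact gt_not_polynomial W hW hΔ hp hp1 h hQ hX
  · obtain ⟨x₀, hx₀⟩ := IsAlgClosed.exists_root B hdeg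
    exact gt_torsion_of_root W hW hΔ h hQ hBm.ne_zero hcop hX hx₀

end cases

end Fermat.Agent.S13
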