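import Mathlib
import Fermat.Prelude.Def_FLTPrelim_GaloisRep
import Fermat.Agent.S05.Transport
import Fermat.Agent.S05.Final
import Fermat.Agent.S13.GenericTorsion.Main

/-!
# S13 [DIV]: existence of non-zero `p`-torsion points

* `gt_exists_torsion`: short Weierstrass curves `y² = x³ + a₂x² + a₄x`;
* `gt_exists_torsion_of_a₁_eq_one`: curves `y² + xy = x³ + a₂x² + a₄x`;
* `gt_frey_nontrivial`: the `p`-torsion of the Frey curve over `ℚ̄` is non-trivial.
-/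

set_option autoImplicit false
set_option linter.unusedSectionVars false

open Polynomial WeierstrassCurve WeierstrassCurve.Affine Fermat.Agent.S05

namespace Fermat.Agent.S13

section general

variable {K : Type*} [Field K] [IsAlgClosed K] [CharZero K] [DecidableEq K]

/-- **Existence of torsion** on a short Weierstrass elliptic curve over an algebraically closed
field of characteristic zero. -/
theorem gt_exists_torsion (W : WeierstrassCurve.Affine K) (hW : IsShort W) (hΔ : W.Δ ≠ 0)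
    (p : ℕ) (hp : Odd p) (hp1 : 1 < p) : ∃ P : W.Point, P ≠ 0 ∧ p • P = 0 := by
  have h := gt_exists_torsion_baseChange W hW hΔ p hp hp1
  have e : (W⁄K) = W := WeierstrassCurve.map_id W
  rw [e] at h
  exact h

/-- The discriminant of the shifted short model. -/
lemma gt_shiftCurve_Δ (W : WeierstrassCurve.Affine K) (h₁ : W.a₁ = 1) (h₃ : W.a₃ = 0)
    (h₆ : W.a₆ = 0) : (shiftCurve W 0).Δ = 4096 * W.Δ := by
  simp only [WeierstrassCurve.Δ, WeierstrassCurve.b₂, WeierstrassCurve.b₄, WeierstrassCurve.b₆,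
    WeierstrassCurve.b₈, shiftCurve_a₁, shiftCurve_a₂, shiftCurve_a₃, shiftCurve_a₄,
    shiftCurve_a₆, h₁, h₃, h₆]
  ring

lemma gt_shiftCurve_isShort (W : WeierstrassCurve.Affine K) : IsShort (shiftCurve W 0) := by
  refine ⟨shiftCurve_a₁ W 0, shiftCurve_a₃ W 0, ?_⟩
  rw [shiftCurve_a₆]
  ring

/-- **Existence of torsion** on a curve `y² + xy = x³ + a₂x² + a₄x`. -/
theorem gt_exists_torsion_of_a₁_eq_one (W : WeierstrassCurve.Affine K) (h₁ : W.a₁ = 1)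
    (h₃ : W.a₃ = 0) (h₆ : W.a₆ = 0) (hΔ : W.Δ ≠ 0) (p : ℕ) (hp : Odd p) (hp1 : 1 < p) :
    ∃ P : W.Point, P ≠ 0 ∧ p • P = 0 := by
  have h2 : (2 : K) ≠ 0 := two_ne_zero
  have hΔs : (shiftCurve W 0).Δ ≠ 0 := by
    rw [gt_shiftCurve_Δ W h₁ h₃ h₆]
    exact mul_ne_zero (by norm_num) hΔ
  obtain ⟨Q, hQ0, hpQ⟩ := gt_exists_torsion (shiftCurve W 0) (gt_shiftCurve_isShort W) hΔs p hp hp1
  rcases Q with _ | ⟨X, Y, hXY⟩
  · exact absurd rfl hQ0
  -- the preimage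
  have hX : 4 * (X / 4) - 0 = X := by field_simp; ring
  have hY : 8 * ((Y - X) / 8) + 4 * (X / 4) = Y := by field_simp; ring
  have heq : W.Equation (X / 4) ((Y - X) / 8) := by
    rw [← shift_equation_iff W h₁ h₃ h₆ 0 h2, hX, hY]
    exact hXY.1
  have hns : W.Nonsingular (X / 4) ((Y - X) / 8) :=
    (WeierstrassCurve.Affine.equation_iff_nonsingular_of_Δ_ne_zero hΔ).1 heq
  refine ⟨Point.some _ _ hns, Point.some_ne_zero _, ?_⟩
  apply transport_injective W h₁ h₃ h₆ 0 h2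
  rw [map_nsmul, map_zero, transport_some]
  have : (Point.some (4 * (X / 4) - 0) (8 * ((Y - X) / 8) + 4 * (X / 4))
      (shift_nonsingular W h₁ h₃ h₆ 0 h2 hns) : (shiftCurve W 0).Point) = Point.some X Y hXY := by
    congr 1
  rw [this]
  exact hpQ

end general

section frey

local notation "Qbar" => AlgebraicClosure ℚ

/-- The discriminant of a curve `y² + xy = x³ + a₂x² + a₄x`. -/
lemma gt_Δ_of_a₁_eq_one {K : Type*} [Field K] (W : WeierstrassCurve.Affine K) (h₁ : W.a₁ = 1)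
    (h₃ : W.a₃ = 0) (h₆ : W.a₆ = 0) :
    256 * W.Δ = (16 * W.a₄) ^ 2 * ((4 * W.a₂ + 1) ^ 2 - 4 * (16 * W.a₄)) := by
  simp only [WeierstrassCurve.Δ, WeierstrassCurve.b₂, WeierstrassCurve.b₄, WeierstrassCurve.b₆,
    WeierstrassCurve.b₈, h₁, h₃, h₆]
  ring

/-- The discriminant of the Frey curve is non-zero. -/
lemma gt_frey_Δ_ne_zero (P : FreyPackage) : (P.freyCurve⁄Qbar).Δ ≠ 0 := by
  have h := gt_Δ_of_a₁_eq_one (P.freyCurve⁄Qbar) (frey_a₁ P) (frey_a₃ P) (frey_a₆ P)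
  rw [frey_a₂, frey_a₄] at h
  have hint : ((-(P.a ^ P.p * P.b ^ P.p) : ℤ)) ^ 2 *
      (((P.b ^ P.p - P.a ^ P.p : ℤ)) ^ 2 - 4 * (-(P.a ^ P.p * P.b ^ P.p) : ℤ)) ≠ 0 := by
    have e : ((-(P.a ^ P.p * P.b ^ P.p) : ℤ)) ^ 2 *
        (((P.b ^ P.p - P.a ^ P.p : ℤ)) ^ 2 - 4 * (-(P.a ^ P.p * P.b ^ P.p) : ℤ)) =
        (P.a ^ P.p * P.b ^ P.p * P.c ^ P.p) ^ 2 := by
      rw [← P.hFLT]
      ring
    rw [e]
    exact pow_ne_zero _ (mul_ne_zero (mul_ne_zero (pow_ne_zero _ P.ha0) (pow_ne_zero _ P.hb0))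
      (pow_ne_zero _ P.hc0))
  intro h0
  rw [h0, mul_zero] at h
  apply hint
  have h' : ((((-(P.a ^ P.p * P.b ^ P.p) : ℤ)) ^ 2 *
      (((P.b ^ P.p - P.a ^ P.p : ℤ)) ^ 2 - 4 * (-(P.a ^ P.p * P.b ^ P.p) : ℤ)) : ℤ) : Qbar) = 0 := by
    push_cast
    push_cast at h
    linear_combination -h
  exact_mod_cast h'

/-- The Frey curve has a non-zero `p`-torsion point over `ℚ̄`. -/
theorem gt_frey_exists_torsion (P : FreyPackage) :
    ∃ Q : (P.freyCurve⁄Qbar).Point, Q ≠ 0 ∧ P.p • Q = 0 :=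
  gt_exists_torsion_of_a₁_eq_one (P.freyCurve⁄Qbar) (frey_a₁ P) (frey_a₃ P) (frey_a₆ P)
    (gt_frey_Δ_ne_zero P) P.p P.hp_odd (by have := P.hp5; omega)

/-- **[DIV]** The `p`-torsion of the Frey curve over `ℚ̄` is non-trivial. -/
theorem gt_frey_nontrivial (P : FreyPackage) :
    Nontrivial (Submodule.torsionBy ℤ (P.freyCurve⁄Qbar).Point P.p) := by
  obtain ⟨Q, hQ0, hQ⟩ := gt_frey_exists_torsion P
  have hmem : Q ∈ Submodule.torsionBy ℤ (P.freyCurve⁄Qbar).Point P.p := by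
    rw [Submodule.mem_torsionBy_iff]
    rw [natCast_zsmul]
    exact hQ
  refine ⟨⟨⟨Q, hmem⟩, 0, ?_⟩⟩
  intro h
  exact hQ0 (congrArg Subtype.val h)

end frey

end Fermat.Agent.S13
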